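import Fermat.Agent.S59.H540.DetCong
import Fermat.Agent.Lib.Cheb.Chebotarev
import Fermat.Agent.S55.H414.CycloPow
import Fermat.Prelude.Def_GaloisRep_LocalConditions
import Fermat.Prelude.Def_CuspForm_HeckeGaloisRepDatum

/-!
# S59 / G-DET (helper540): the determinant is cyclotomic

Every deformation condition of the Prelude (`flatCondition`, `strictOrdinaryCondition`, ...)
contains `GaloisRepAdic.DetIsCyclotomic p`.  No frozen statement provides it; it follows from the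
Frobenius determinants by Chebotarev.

* `detIsCyclotomic_of_frob` : `A` noetherian local, `p ∈ 𝔪_A`, `ρ : GaloisRepAdic A` with
  `det ρ(Frob_ℓ) = ℓ` for all primes `ℓ` outside a finite set `S`  ⟹  `ρ.DetIsCyclotomic p`.
* `detIsCyclotomic_of_charpoly_frob` : same from `charpoly ρ(Frob_ℓ) = X² - a_ℓ X + ℓ`.
* `heckeGaloisRepDatum_detIsCyclotomic` : `H.ρ.DetIsCyclotomic p` for every
  `CuspForm.HeckeGaloisRepDatum N ↑S 𝒪 θ T` (`S` a finite set of primes, `p ∈ 𝔪_T`).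

Inputs: `Fermat.Agent.Lib.Cheb.chebotarev` (landed), the roots-of-unity lemmas of
`Fermat.Agent.S55.H414` (landed), adic continuity and Krull's intersection theorem.
-/

set_option autoImplicit false

namespace Fermat.Agent.S59.H540

open IsLocalRing Fermat.Agent.S55.H414 Fermat.Agent.S55.Bridge

/-- `ℓ ≡ a mod p ^ n` gives `ℓ - a ∈ (p ^ n)` in any commutative ring. -/
theorem natCast_sub_natCast_mem_span {A : Type*} [CommRing A] {N ℓ a : ℕ}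
    (h : (ℓ : ZMod N) = (a : ZMod N)) : (ℓ : A) - (a : A) ∈ Ideal.span {((N : ℕ) : A)} := by
  have h1 : ℓ ≡ a [MOD N] := (ZMod.natCast_eq_natCast_iff ℓ a N).mp h
  have h2 : (N : ℤ) ∣ (a : ℤ) - (ℓ : ℤ) := (Nat.modEq_iff_dvd).mp h1
  obtain ⟨c, hc⟩ := h2
  rw [Ideal.mem_span_singleton]
  refine ⟨-(c : A), ?_⟩
  have h3 : ((a : ℤ) : A) - ((ℓ : ℤ) : A) = ((N : ℤ) : A) * (c : A) := by
    rw [← Int.cast_sub, hc, Int.cast_mul]
  simp only [Int.cast_natCast] at h3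
  linear_combination -h3

/-- **The determinant is cyclotomic** as soon as it is so on Frobenius elements outside a finite
set of primes. -/
theorem detIsCyclotomic_of_frob {A : Type} [CommRing A] [IsLocalRing A] [IsNoetherianRing A]
    (ρ : GaloisRepAdic A) (p : ℕ) [Fact p.Prime] (hpA : (p : A) ∈ maximalIdeal A) (S : Finset ℕ)
    (hdet : ∀ ℓ : ℕ, ℓ.Prime → ℓ ∉ S →
      ∀ P : ValuationSubring (AlgebraicClosure ℚ), P.LiesOverPrime ℓ →
        ∀ σ : AlgebraicClosure ℚ ≃ₐ[ℚ] AlgebraicClosure ℚ, P.IsFrobeniusAt σ ℓ →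
          LinearMap.det (ρ.ρ σ) = (ℓ : A)) :
    ρ.DetIsCyclotomic p := by
  have hp : p.Prime := Fact.out
  refine ⟨hpA, fun n σ a hσ => ?_⟩
  have : NeZero (p ^ n) := ⟨pow_ne_zero _ hp.ne_zero⟩
  apply mem_of_forall_mem_sup_pow
  intro k
  obtain ⟨L, hLfin, hL⟩ := ρ.isAdicContinuous k
  have : FiniteDimensional ℚ L := hLfin
  have hE : FiniteDimensional ℚ ↥(L ⊔ cycloLevel (p ^ n)) :=
    IntermediateField.finiteDimensional_sup L (cycloLevel (p ^ n))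
  obtain ⟨ℓ, P, τ, hℓ, hℓS, hP, hτ, -, hτσ⟩ :=
    Fermat.Agent.Lib.Cheb.chebotarev (L ⊔ cycloLevel (p ^ n)) hE σ (insert p S)
  have hℓp : ℓ ≠ p := fun h => hℓS (by rw [h]; exact Finset.mem_insert_self _ _)
  have hℓS' : ℓ ∉ S := fun h => hℓS (Finset.mem_insert_of_mem h)
  -- the determinant of the Frobenius
  have h1 : LinearMap.det (ρ.ρ τ) = (ℓ : A) := hdet ℓ hℓ hℓS' P hP τ hτ
  -- `τ⁻¹ σ` is trivial on `L`
  have h2 : ∀ x ∈ L, (τ⁻¹ * σ) x = x := by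
    intro x hx
    have hx' : x ∈ L ⊔ cycloLevel (p ^ n) := (le_sup_left : L ≤ _) hx
    have e := hτσ x hx'
    rw [AlgEquiv.mul_apply, ← e]
    exact τ.symm_apply_apply x
  have h4 : LinearMap.det (ρ.ρ (τ⁻¹ * σ)) - 1 ∈ maximalIdeal A ^ k :=
    det_sub_one_mem _ _ (hL (τ⁻¹ * σ) h2)
  have h5 : LinearMap.det (ρ.ρ σ) = (ℓ : A) * LinearMap.det (ρ.ρ (τ⁻¹ * σ)) := by
    rw [← h1, ← map_mul, ← map_mul, mul_inv_cancel_left]
  -- `ℓ ≡ a mod p ^ n`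
  have hNv : P.valuation (((p ^ n : ℕ) : ℕ) : AlgebraicClosure ℚ) = 1 := by
    rw [Nat.cast_pow, map_pow, val_prime_eq_one (A := P) hP hℓ hp hℓp, one_pow]
  have h6 : τ (zetaBar (p ^ n)) = zetaBar (p ^ n) ^ ℓ :=
    IsFrobeniusAt_apply_root hτ (NeZero.ne _) hNv (zetaBar_spec (p ^ n)).pow_eq_one
  have h7 : σ (zetaBar (p ^ n)) = zetaBar (p ^ n) ^ a :=
    hσ _ (zetaBar_spec (p ^ n)).pow_eq_one
  have h8 : τ (zetaBar (p ^ n)) = σ (zetaBar (p ^ n)) :=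
    hτσ _ ((le_sup_right : cycloLevel (p ^ n) ≤ _) (zetaBar_mem_cycloLevel (p ^ n)))
  have h9 : (ℓ : ZMod (p ^ n)) = (a : ZMod (p ^ n)) := by
    rw [← pow_eq_pow_iff_natCast_eq (zetaBar_spec (p ^ n)), ← h6, ← h7, h8]
  have h10 : (ℓ : A) - (a : A) ∈ Ideal.span {((p ^ n : ℕ) : A)} :=
    natCast_sub_natCast_mem_span h9
  -- conclusion
  have e : LinearMap.det (ρ.ρ σ) - (a : A) =
      ((ℓ : A) - (a : A)) + (ℓ : A) * (LinearMap.det (ρ.ρ (τ⁻¹ * σ)) - 1) := by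
    rw [h5]; ring
  rw [e]
  exact Submodule.add_mem_sup h10 (Ideal.mul_mem_left _ _ h4)

/-- Version with Frobenius characteristic polynomials `X² - a_ℓ X + ℓ`. -/
theorem detIsCyclotomic_of_charpoly_frob {A : Type} [CommRing A] [IsLocalRing A]
    [IsNoetherianRing A] (ρ : GaloisRepAdic A) (p : ℕ) [Fact p.Prime]
    (hpA : (p : A) ∈ maximalIdeal A) (S : Finset ℕ) (t : ℕ → A)
    (hchar : ∀ ℓ : ℕ, ℓ.Prime → ℓ ∉ S →
      ∀ P : ValuationSubring (AlgebraicClosure ℚ), P.LiesOverPrime ℓ →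
        ∀ σ : AlgebraicClosure ℚ ≃ₐ[ℚ] AlgebraicClosure ℚ, P.IsFrobeniusAt σ ℓ →
          LinearMap.charpoly (ρ.ρ σ) =
            Polynomial.X ^ 2 - Polynomial.C (t ℓ) * Polynomial.X + Polynomial.C (ℓ : A)) :
    ρ.DetIsCyclotomic p :=
  detIsCyclotomic_of_frob ρ p hpA S fun ℓ hℓ hℓS P hP σ hσ =>
    det_eq_of_charpoly ρ.finrank_eq _ (t ℓ) _ (hchar ℓ hℓ hℓS P hP σ hσ)

/-- **The representation of a Hecke–Galois datum has cyclotomic determinant.** -/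
theorem heckeGaloisRepDatum_detIsCyclotomic {N : ℕ} [NeZero N] (S : Finset ℕ)
    {𝒪 : Type} [CommRing 𝒪] [IsDomain 𝒪] [IsDiscreteValuationRing 𝒪]
    [IsAdicComplete (IsLocalRing.maximalIdeal 𝒪) 𝒪]
    {θ : CuspForm.heckeAlgebra N 2 (↑S : Set ℕ) →+* IsLocalRing.ResidueField 𝒪}
    {T : Type} [CommRing T] [IsLocalRing T] [IsNoetherianRing T]
    [IsAdicComplete (IsLocalRing.maximalIdeal T) T] [Algebra 𝒪 T] [IsLocalHom (algebraMap 𝒪 T)]
    [Module.Finite 𝒪 T] [Module.Free 𝒪 T]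
    (H : CuspForm.HeckeGaloisRepDatum N (↑S : Set ℕ) 𝒪 θ T)
    (p : ℕ) [Fact p.Prime] (hpT : (p : T) ∈ maximalIdeal T) :
    H.ρ.DetIsCyclotomic p := by
  classical
  refine detIsCyclotomic_of_frob H.ρ p hpT (S ∪ N.primeFactors) ?_
  intro ℓ hℓ hℓS P hP σ hσ
  have hℓS' : ℓ ∉ (↑S : Set ℕ) := fun h => hℓS (Finset.mem_union_left _ (Finset.mem_coe.mp h))
  have hℓN : ¬ ℓ ∣ N := fun h =>
    hℓS (Finset.mem_union_right _ (Nat.mem_primeFactors.mpr ⟨hℓ, h, NeZero.ne N⟩))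
  exact det_eq_of_charpoly H.ρ.finrank_eq _ _ _ (H.charpoly_frob ℓ hℓ hℓN hℓS' P hP σ hσ)

end Fermat.Agent.S59.H540
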